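import Mathlib

namespace Fermat.Agent.Helper9

theorem descent_of_basis {S R : Type*} [CommRing S] [CommRing R] (ψ : S →+* R)
    (hψ : Function.Surjective ψ) (I : Ideal S) (hI : I ≤ RingHom.ker ψ)
    {N M : Type*} [AddCommGroup N] [Module S N] [AddCommGroup M] [Module R M] [Nontrivial M]
    {ι : Type*} [Fintype ι] (n : Module.Basis ι S N)
    (π : N →+ M) (hπs : ∀ (f : S) (x : N), π (f • x) = ψ f • π x) (hπ : Function.Surjective π)
    (hker : ∀ x, π x = 0 ↔ x ∈ I • (⊤ : Submodule S N)) :
    Module.Free R M ∧ Module.annihilator R M = ⊥ ∧ RingHom.ker ψ = I := by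
  classical
  -- coordinates of elements of `I • ⊤` lie in `I`
  have hrepr : ∀ x ∈ I • (⊤ : Submodule S N), ∀ j, n.repr x j ∈ I := by
    intro x hx j
    rw [← n.span_eq, Submodule.mem_ideal_smul_span_iff_exists_sum] at hx
    obtain ⟨a, ha, rfl⟩ := hx
    have : n.repr (a.sum fun i c => c • n i) = a := by
      rw [← Finsupp.linearCombination_apply, Module.Basis.repr_linearCombination]
    rw [this]
    exact ha j
  have hπsum : ∀ c : ι → S, π (∑ j, c j • n j) = ∑ j, ψ (c j) • π (n j) := by
    intro c
    rw [map_sum]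
    exact Finset.sum_congr rfl fun j _ => hπs _ _
  have hkey : ∀ c : ι → S, π (∑ j, c j • n j) = 0 → ∀ j, c j ∈ I := by
    intro c hc j
    have := hrepr _ ((hker _).mp hc) j
    rwa [Module.Basis.repr_sum_self] at this
  -- the index type is nonempty
  have hne : Nonempty ι := by
    by_contra hempty
    rw [not_nonempty_iff] at hempty
    obtain ⟨m, hm⟩ := exists_ne (0 : M)
    obtain ⟨x, rfl⟩ := hπ m
    apply hm
    rw [← n.sum_repr x, Finset.univ_eq_empty, Finset.sum_empty, map_zero]
  obtain ⟨j₀⟩ := hne
  have hkill : ∀ s : S, ψ s • π (n j₀) = 0 → s ∈ I := by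
    intro s hs
    rw [← hπs, hker] at hs
    have := hrepr _ hs j₀
    simpa using this
  refine ⟨?_, ?_, ?_⟩
  · -- freeness
    have hli : LinearIndependent R (fun j => π (n j)) := by
      rw [Fintype.linearIndependent_iff]
      intro g hg j
      choose c hc using fun j => hψ (g j)
      have h1 : π (∑ j, c j • n j) = 0 := by
        rw [hπsum, ← hg]
        exact Finset.sum_congr rfl fun j _ => by rw [hc]
      rw [← hc j]
      exact hI (hkey c h1 j)
    have hsp : ⊤ ≤ Submodule.span R (Set.range fun j => π (n j)) := by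
      intro m _
      obtain ⟨x, rfl⟩ := hπ m
      rw [← n.sum_repr x, map_sum]
      refine Submodule.sum_mem _ fun j _ => ?_
      rw [hπs]
      exact Submodule.smul_mem _ _ (Submodule.subset_span ⟨j, rfl⟩)
    exact Module.Free.of_basis (Module.Basis.mk hli hsp)
  · rw [Submodule.eq_bot_iff]
    intro a ha
    obtain ⟨s, rfl⟩ := hψ a
    rw [Module.mem_annihilator] at ha
    exact hI (hkill s (ha _))
  · apply le_antisymm
    · intro s hs
      rw [RingHom.mem_ker] at hs
      apply hkill
      rw [hs, zero_smul]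
    · exact hI

end Fermat.Agent.Helper9
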