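import Mathlib

/-!
# Global dimension bound for local rings whose maximal ideal is generated by a regular sequence

We prove: if `A` is a Noetherian local ring whose maximal ideal is generated by a weakly regular
sequence of length `n`, then every finitely generated `A`-module has projective dimension `≤ n`.
-/

open CategoryTheory Abelian IsLocalRing Module RingTheory.Sequence
open scoped Pointwise

namespace Fermat.Agent.Helper9

universe u

/-- Every finitely generated `A`-module (in universe `u`) has projective dimension `≤ n`. -/
def GlDimLE (A : Type u) [CommRing A] (n : ℕ) : Prop :=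
  ∀ (M : Type u) [AddCommGroup M] [Module A M], Module.Finite A M →
    HasProjectiveDimensionLE (ModuleCat.of A M) n

variable {A : Type u} [CommRing A]

theorem glDimLE_zero_of_isField (h : IsField A) : GlDimLE A 0 := by
  intro M _ _ _
  let := h.toField
  rw [← projective_iff_hasProjectiveDimensionLE_zero, ← IsProjective.iff_projective]
  infer_instance

theorem isSMulRegular_of_free {x : A} (hxA : IsSMulRegular A x) (P : Type*) [AddCommGroup P]
    [Module A P] [Module.Free A P] : IsSMulRegular P x := by
  apply Module.Flat.isSMulRegular_of_isRegular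
  exact isLeftRegular_iff_isRegular.mp hxA.isLeftRegular

theorem isLocalRing_quotient_span_singleton [IsLocalRing A] {x : A} (hx : x ∈ maximalIdeal A) :
    IsLocalRing (A ⧸ Ideal.span {x}) := by
  have : Nontrivial (A ⧸ Ideal.span {x}) := by
    rw [Ideal.Quotient.nontrivial_iff]
    intro h
    rw [Ideal.span_singleton_eq_top] at h
    exact hx h
  exact IsLocalRing.of_surjective' (Ideal.Quotient.mk (Ideal.span {x})) Ideal.Quotient.mk_surjective

/-- The reduction mod `x` of a linear map, as an `A ⧸ (x)`-linear map. -/
noncomputable def quotSMulTopMap (x : A) {M N : Type*} [AddCommGroup M] [Module A M]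
    [AddCommGroup N] [Module A N] (f : M →ₗ[A] N) :
    QuotSMulTop x M →ₗ[A ⧸ Ideal.span {x}] QuotSMulTop x N :=
  LinearMap.extendScalarsOfSurjective (Ideal.Quotient.mk_surjective (I := Ideal.span {x}))
    (QuotSMulTop.map x f)

theorem quotSMulTopMap_apply (x : A) {M N : Type*} [AddCommGroup M] [Module A M]
    [AddCommGroup N] [Module A N] (f : M →ₗ[A] N) (y : QuotSMulTop x M) :
    quotSMulTopMap x f y = QuotSMulTop.map x f y := rfl


theorem quotSMulTopMap_comp_ker (x : A) {P K : Type*} [AddCommGroup P] [Module A P]
    [AddCommGroup K] [Module A K] (f : P →ₗ[A] K) :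
    (quotSMulTopMap x f).comp (quotSMulTopMap x (LinearMap.ker f).subtype) = 0 := by
  refine LinearMap.ext fun y => ?_
  induction y using Submodule.Quotient.induction_on with | _ y
  simp [quotSMulTopMap_apply]

/-- The short exact sequence `0 → K'/xK' → P/xP → K/xK → 0` coming from a surjection `f : P → K`
with kernel `K'` when `x` is `K`-regular. -/
theorem shortExact_quotSMulTop {x : A} {P K : Type u} [AddCommGroup P] [Module A P]
    [AddCommGroup K] [Module A K] (f : P →ₗ[A] K) (hf : Function.Surjective f)
    (hreg : IsSMulRegular K x) :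
    (ModuleCat.shortComplexOfCompEqZero (quotSMulTopMap x (LinearMap.ker f).subtype)
      (quotSMulTopMap x f) (quotSMulTopMap_comp_ker x f)).ShortExact := by
  have hex : Function.Exact (LinearMap.ker f).subtype f := fun y => by simp
  apply ModuleCat.shortComplex_shortExact
  · -- exactness in the middle
    have := QuotSMulTop.map_exact x hex hf
    intro y
    exact this y
  · -- injectivity
    have h0 : Function.Exact (0 : PUnit.{u+1} →ₗ[A] LinearMap.ker f) (LinearMap.ker f).subtype := by
      rw [LinearMap.exact_zero_iff_injective]
      exact Submodule.injective_subtype _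
    have := QuotSMulTop.map_first_exact_on_four_term_exact_of_isSMulRegular_last h0 hex hreg
    rw [map_zero, LinearMap.exact_zero_iff_injective] at this
    exact this
  · exact QuotSMulTop.map_surjective x hf

/-- If `x ∈ 𝔪` is regular on `A` and on the f.g. module `K`, then
`pd_A K ≤ pd_{A/x} (K/xK)`. -/
theorem hasProjectiveDimensionLE_of_quotSMulTop [IsLocalRing A] [IsNoetherianRing A] {x : A}
    (hx : x ∈ maximalIdeal A) (hxA : IsSMulRegular A x) (k : ℕ) :
    ∀ (K : Type u) [AddCommGroup K] [Module A K] [Module.Finite A K], IsSMulRegular K x →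
      HasProjectiveDimensionLE (ModuleCat.of (A ⧸ Ideal.span {x}) (QuotSMulTop x K)) k →
      HasProjectiveDimensionLE (ModuleCat.of A K) k := by
  have hloc : IsLocalRing (A ⧸ Ideal.span {x}) := isLocalRing_quotient_span_singleton hx
  induction k with
  | zero =>
    intro K _ _ _ hreg h
    rw [← projective_iff_hasProjectiveDimensionLE_zero, ← IsProjective.iff_projective] at h ⊢
    have hfin : Module.Finite (A ⧸ Ideal.span {x}) (QuotSMulTop x K) :=
      Module.Finite.of_restrictScalars_finite A _ _
    have hfree : Module.Free (A ⧸ Ideal.span {x}) (QuotSMulTop x K) :=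
      Module.free_of_flat_of_isLocalRing
    have hjac : x ∈ (⊥ : Ideal A).jacobson := by
      rwa [IsLocalRing.jacobson_eq_maximalIdeal ⊥ bot_ne_top]
    have : Module.FinitePresentation A K := Module.finitePresentation_of_finite A K
    have : Module.Free A K := (Module.free_quotSMulTop_iff_free A K hjac hreg).mp hfree
    infer_instance
  | succ k ih =>
    intro K _ _ _ hreg h
    obtain ⟨P, _, _, _, _, f, hf⟩ := Module.exists_finite_presentation A K
    have hregP : IsSMulRegular P x := isSMulRegular_of_free hxA P
    have hregK' : IsSMulRegular (LinearMap.ker f) x := hregP.submodule _ _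
    have hS' := shortExact_quotSMulTop f hf hreg
    have hS := LinearMap.shortExact_shortComplexKer hf
    have hprojP : Projective (ModuleCat.of (A ⧸ Ideal.span {x}) (QuotSMulTop x P)) := by
      rw [← IsProjective.iff_projective]
      infer_instance
    have h1 : HasProjectiveDimensionLE
        (ModuleCat.of (A ⧸ Ideal.span {x}) (QuotSMulTop x (LinearMap.ker f))) k :=
      (hS'.hasProjectiveDimensionLT_X₃_iff k hprojP).mp h
    have h2 : HasProjectiveDimensionLE (ModuleCat.of A (LinearMap.ker f)) k :=
      ih (LinearMap.ker f) hregK' h1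
    have hprojP' : Projective (ModuleCat.of A P) := by
      rw [← IsProjective.iff_projective]
      infer_instance
    exact (hS.hasProjectiveDimensionLT_X₃_iff k hprojP').mpr h2


theorem glDimLE_succ_of_quotient [IsLocalRing A] [IsNoetherianRing A] {x : A}
    (hx : x ∈ maximalIdeal A) (hxA : IsSMulRegular A x) {n : ℕ}
    (h : GlDimLE (A ⧸ Ideal.span {x}) n) : GlDimLE A (n + 1) := by
  intro M _ _ _
  obtain ⟨P, _, _, _, _, f, hf⟩ := Module.exists_finite_presentation A M
  have hregP : IsSMulRegular P x := isSMulRegular_of_free hxA P
  have hregK' : IsSMulRegular (LinearMap.ker f) x := hregP.submodule _ _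
  have hS := LinearMap.shortExact_shortComplexKer hf
  have hfin : Module.Finite (A ⧸ Ideal.span {x}) (QuotSMulTop x (LinearMap.ker f)) :=
    Module.Finite.of_restrictScalars_finite A _ _
  have h1 := h (QuotSMulTop x (LinearMap.ker f)) hfin
  have h2 : HasProjectiveDimensionLE (ModuleCat.of A (LinearMap.ker f)) n :=
    hasProjectiveDimensionLE_of_quotSMulTop hx hxA n (LinearMap.ker f) hregK' h1
  have hprojP' : Projective (ModuleCat.of A P) := by
    rw [← IsProjective.iff_projective]
    infer_instance
  exact (hS.hasProjectiveDimensionLT_X₃_iff n hprojP').mpr h2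

/-- `A ⧸ x • ⊤ ≃ A ⧸ (x)` as `A ⧸ (x)`-modules. -/
noncomputable def quotSMulTopSelfEquiv (x : A) :
    QuotSMulTop x A ≃ₗ[A ⧸ Ideal.span {x}] (A ⧸ Ideal.span {x}) :=
  LinearEquiv.extendScalarsOfSurjective (Ideal.Quotient.mk_surjective (I := Ideal.span {x}))
    (Submodule.quotEquivOfEq (x • (⊤ : Submodule A A)) (Ideal.span {x}) (by
      rw [← Submodule.ideal_span_singleton_smul, smul_eq_mul, Ideal.mul_top]))

theorem glDimLE_of_regular_generators (n : ℕ) :
    ∀ (A : Type u) [CommRing A] [IsLocalRing A] [IsNoetherianRing A] (rs : List A),
      rs.length = n → IsWeaklyRegular A rs → maximalIdeal A = Ideal.ofList rs → GlDimLE A n := by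
  induction n with
  | zero =>
    intro A _ _ _ rs hlen _ hmax
    rw [List.length_eq_zero_iff] at hlen
    subst hlen
    rw [Ideal.ofList_nil] at hmax
    exact glDimLE_zero_of_isField (IsLocalRing.isField_iff_maximalIdeal_eq.mpr hmax)
  | succ n ih =>
    intro A _ _ _ rs hlen hreg hmax
    match rs, hlen, hreg, hmax with
    | [], hlen, _, _ => simp at hlen
    | x :: rs', hlen, hreg, hmax =>
      have hx : x ∈ maximalIdeal A := by
        rw [hmax]
        exact Ideal.subset_span (by simp)
      obtain ⟨hxA, hreg'⟩ := (isWeaklyRegular_cons_iff' A x rs').mp hreg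
      have hloc : IsLocalRing (A ⧸ Ideal.span {x}) := isLocalRing_quotient_span_singleton hx
      have hreg'' : IsWeaklyRegular (A ⧸ Ideal.span {x})
          (rs'.map (Ideal.Quotient.mk (Ideal.span {x}))) :=
        ((quotSMulTopSelfEquiv x).isWeaklyRegular_congr _).mp hreg'
      have hmax' : maximalIdeal (A ⧸ Ideal.span {x}) =
          Ideal.ofList (rs'.map (Ideal.Quotient.mk (Ideal.span {x}))) := by
        have h1 : maximalIdeal (A ⧸ Ideal.span {x}) =
            (maximalIdeal A).map (Ideal.Quotient.mk (Ideal.span {x})) := by
          have hc : (maximalIdeal (A ⧸ Ideal.span {x})).comap (Ideal.Quotient.mk (Ideal.span {x}))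
              = maximalIdeal A :=
            IsLocalRing.eq_maximalIdeal
              (Ideal.comap_isMaximal_of_surjective _ Ideal.Quotient.mk_surjective)
          rw [← hc, Ideal.map_comap_of_surjective _ Ideal.Quotient.mk_surjective]
        rw [h1, hmax, Ideal.map_ofList, List.map_cons, Ideal.ofList_cons]
        simp
      have := ih (A ⧸ Ideal.span {x}) (rs'.map (Ideal.Quotient.mk (Ideal.span {x})))
        (by simpa using hlen) hreg'' hmax'
      exact glDimLE_succ_of_quotient hx hxA this


/-- Over a Noetherian local ring whose maximal ideal is generated by a weakly regular sequence of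
length `n`, a finitely generated module admitting a weakly regular sequence of length `n` inside
the maximal ideal is free. -/
theorem free_of_isWeaklyRegular_of_length_eq [IsLocalRing A] [IsNoetherianRing A]
    (rs : List A) (hrs : IsWeaklyRegular A rs) (hmax : maximalIdeal A = Ideal.ofList rs)
    (N : Type u) [AddCommGroup N] [Module A N] [Module.Finite A N]
    (ys : List A) (hlen : ys.length = rs.length) (hys : IsWeaklyRegular N ys)
    (hmem : ∀ y ∈ ys, y ∈ maximalIdeal A) : Module.Free A N := by
  rcases subsingleton_or_nontrivial N with hN | hN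
  · infer_instance
  have hgl : GlDimLE A rs.length := glDimLE_of_regular_generators rs.length A rs rfl hrs hmax
  have hpd := ModuleCat.projectiveDimension_quotient_eq_add_length_of_isWeaklyRegular
    (ModuleCat.of A N) ys hys hmem
  have hle : projectiveDimension (ModuleCat.of A (N ⧸ Ideal.ofList ys • (⊤ : Submodule A N)))
      ≤ (rs.length : ℕ) := by
    rw [projectiveDimension_le_iff]
    exact hgl _ inferInstance
  rw [hpd, hlen] at hle
  have hproj : Projective (ModuleCat.of A N) := by
    rw [projective_iff_hasProjectiveDimensionLE_zero, ← projectiveDimension_le_iff]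
    generalize hd : projectiveDimension (ModuleCat.of A N) = d at hle
    induction d with
    | bot => simp
    | coe d =>
      induction d with
      | top => 
        exfalso
        have h1 : ((⊤ : ℕ∞) : WithBot ℕ∞) + ((rs.length : ℕ) : WithBot ℕ∞)
            = ((⊤ : ℕ∞) : WithBot ℕ∞) := by
          rw [show ((rs.length : ℕ) : WithBot ℕ∞) = (((rs.length : ℕ) : ℕ∞) : WithBot ℕ∞) from rfl,
            ← WithBot.coe_add, top_add]
        rw [h1] at hle
        have h2 : (⊤ : ℕ∞) ≤ ((rs.length : ℕ) : ℕ∞) := WithBot.coe_le_coe.mp hle
        simp at h2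
      | coe d =>
        norm_cast at hle ⊢
        omega
  rw [← IsProjective.iff_projective] at hproj
  exact Module.free_of_flat_of_isLocalRing

end Fermat.Agent.Helper9
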