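import Mathlib

/-!
# The variables form a regular sequence in a multivariate power series ring
-/

open RingTheory.Sequence IsLocalRing
open scoped Pointwise

namespace Fermat.Agent.Helper9

namespace MvPS

open MvPowerSeries

variable {σ : Type*} {R : Type*} [CommRing R]

/-- Coefficientwise description of the ideal generated by a finite set of variables. -/
theorem mem_span_X_image_iff (s : Finset σ) (f : MvPowerSeries σ R) :
    f ∈ Ideal.span ((fun i => (X i : MvPowerSeries σ R)) '' (s : Set σ)) ↔
      ∀ m : σ →₀ ℕ, (∀ j ∈ s, m j = 0) → coeff m f = 0 := by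
  classical
  constructor
  · intro hf
    induction hf using Submodule.span_induction with
    | mem x hx =>
      obtain ⟨j, hj, rfl⟩ := hx
      intro m hm
      rw [coeff_X, if_neg]
      intro h
      have := hm j hj
      rw [h] at this
      simp at this
    | zero => intro m _; simp
    | add x y _ _ hx hy =>
      intro m hm
      rw [map_add, hx m hm, hy m hm, add_zero]
    | smul a x _ hx =>
      intro m hm
      rw [smul_eq_mul, coeff_mul]
      apply Finset.sum_eq_zero
      intro p hp
      rw [Finset.HasAntidiagonal.mem_antidiagonal] at hp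
      have : coeff p.2 x = 0 := by
        apply hx
        intro j hj
        have h1 := hm j hj
        have h2 : p.1 j + p.2 j = m j := by rw [← hp]; rfl
        omega
      rw [this, mul_zero]
  · induction s using Finset.induction_on generalizing f with
    | empty =>
      intro h
      have : f = 0 := by
        ext m
        simpa using h m (by simp)
      rw [this]
      exact Submodule.zero_mem _
    | insert a s has ih =>
      intro h
      set f₂ : MvPowerSeries σ R := fun m => if m a = 0 then coeff m f else 0 with hf₂
      have hc₂ : ∀ m, coeff m f₂ = if m a = 0 then coeff m f else 0 := fun m => rfl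
      have h₂ : f₂ ∈ Ideal.span ((fun i => (X i : MvPowerSeries σ R)) '' (s : Set σ)) := by
        apply ih
        intro m hm
        rw [hc₂]
        split_ifs with hma
        · apply h
          intro j hj
          rcases Finset.mem_insert.mp hj with rfl | hj
          · exact hma
          · exact hm j hj
        · rfl
      have h₁ : (X a : MvPowerSeries σ R) ∣ f - f₂ := by
        rw [X_dvd_iff]
        intro m hma
        rw [map_sub, hc₂, if_pos hma, sub_self]
      have hle : Ideal.span ((fun i => (X i : MvPowerSeries σ R)) '' (s : Set σ)) ≤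
          Ideal.span ((fun i => (X i : MvPowerSeries σ R)) '' ((insert a s : Finset σ) : Set σ)) := by
        apply Ideal.span_mono
        apply Set.image_mono
        simp
      have hXa : (X a : MvPowerSeries σ R) ∈
          Ideal.span ((fun i => (X i : MvPowerSeries σ R)) '' ((insert a s : Finset σ) : Set σ)) := by
        apply Ideal.subset_span
        exact ⟨a, by simp, rfl⟩
      have : f = (f - f₂) + f₂ := by ring
      rw [this]
      exact Ideal.add_mem _ (Ideal.mem_of_dvd _ h₁ hXa) (hle h₂)


theorem mem_ofList_map_X_iff (l : List σ) (f : MvPowerSeries σ R) :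
    f ∈ Ideal.ofList (l.map (fun i => (X i : MvPowerSeries σ R))) ↔
      ∀ m : σ →₀ ℕ, (∀ j ∈ l, m j = 0) → coeff m f = 0 := by
  classical
  have : {r | r ∈ l.map (fun i => (X i : MvPowerSeries σ R))} =
      (fun i => (X i : MvPowerSeries σ R)) '' (l.toFinset : Set σ) := by
    ext r
    simp
  rw [Ideal.ofList, this, mem_span_X_image_iff]
  simp

theorem mem_ofList_map_X_smul_top_iff (l : List σ) (f : MvPowerSeries σ R) :
    f ∈ (Ideal.ofList (l.map (fun i => (X i : MvPowerSeries σ R))) •
        (⊤ : Submodule (MvPowerSeries σ R) (MvPowerSeries σ R))) ↔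
      ∀ m : σ →₀ ℕ, (∀ j ∈ l, m j = 0) → coeff m f = 0 := by
  rw [smul_eq_mul, Ideal.mul_top, mem_ofList_map_X_iff]

theorem isWeaklyRegular_map_X (l : List σ) (hl : l.Nodup) :
    IsWeaklyRegular (MvPowerSeries σ R) (l.map (fun i => (X i : MvPowerSeries σ R))) := by
  classical
  rw [isWeaklyRegular_iff]
  intro i hi
  rw [isSMulRegular_quotient_iff_mem_of_smul_mem]
  intro g hg
  rw [← List.map_take, mem_ofList_map_X_smul_top_iff] at hg ⊢
  intro m hm
  have hi' : i < l.length := by simpa using hi
  rw [List.getElem_map] at hg
  have hnot : l[i] ∉ l.take i := by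
    intro hmem
    rw [List.mem_take_iff_getElem] at hmem
    obtain ⟨k, hk, hkeq⟩ := hmem
    have hk' : k < i := lt_of_lt_of_le hk (min_le_left _ _)
    have := (hl.getElem_inj_iff).mp hkeq
    omega
  have h1 := hg (Finsupp.single l[i] 1 + m) (by
    intro j hj
    have hne : l[i] ≠ j := fun h => hnot (h ▸ hj)
    simp [hm j hj, hne])
  rw [smul_eq_mul, X_def, coeff_add_monomial_mul, one_mul] at h1
  exact h1

section Fin

variable {R : Type*} [CommRing R]

/-- The standard generators of the maximal ideal of `R⟦X₁,…,X_r⟧`: the variables and a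
uniformizer. -/
noncomputable def gens (r : ℕ) (ϖ : R) : List (MvPowerSeries (Fin r) R) :=
  (List.finRange r).map (fun i => (X i : MvPowerSeries (Fin r) R)) ++ [C ϖ]

theorem length_gens (r : ℕ) (ϖ : R) : (gens r ϖ).length = r + 1 := by
  simp [gens]

theorem isWeaklyRegular_gens (r : ℕ) {ϖ : R} (hϖ : IsSMulRegular R ϖ) :
    IsWeaklyRegular (MvPowerSeries (Fin r) R) (gens r ϖ) := by
  rw [gens, isWeaklyRegular_append_iff]
  refine ⟨isWeaklyRegular_map_X _ (List.nodup_finRange r), ?_⟩
  rw [isWeaklyRegular_singleton_iff, isSMulRegular_quotient_iff_mem_of_smul_mem]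
  intro g hg
  rw [mem_ofList_map_X_smul_top_iff] at hg ⊢
  intro m hm
  have hm0 : m = 0 := by
    ext j
    exact hm j (List.mem_finRange j)
  subst hm0
  have := hg 0 (by simp)
  rw [smul_eq_mul, coeff_C_mul] at this
  exact hϖ (by simpa using this)

theorem maximalIdeal_eq_ofList_gens [IsLocalRing R] (r : ℕ) {ϖ : R}
    (hϖ : maximalIdeal R = Ideal.span {ϖ}) :
    maximalIdeal (MvPowerSeries (Fin r) R) = Ideal.ofList (gens r ϖ) := by
  have hmem : ∀ f : MvPowerSeries (Fin r) R,
      f ∈ maximalIdeal (MvPowerSeries (Fin r) R) ↔ constantCoeff f ∈ maximalIdeal R := by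
    intro f
    rw [mem_maximalIdeal, mem_nonunits_iff, mem_maximalIdeal, mem_nonunits_iff,
      MvPowerSeries.isUnit_iff_constantCoeff]
  rw [gens, Ideal.ofList_append, Ideal.ofList_singleton]
  apply le_antisymm
  · intro f hf
    rw [hmem, hϖ, Ideal.mem_span_singleton] at hf
    obtain ⟨a, ha⟩ := hf
    have h1 : f - C (constantCoeff f) ∈
        Ideal.ofList ((List.finRange r).map (fun i => (X i : MvPowerSeries (Fin r) R))) := by
      rw [mem_ofList_map_X_iff]
      intro m hm
      have hm0 : m = 0 := by
        ext j
        exact hm j (List.mem_finRange j)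
      subst hm0
      simp
    have h2 : C (constantCoeff f) ∈ Ideal.span {(C ϖ : MvPowerSeries (Fin r) R)} := by
      rw [ha, map_mul]
      exact Ideal.mul_mem_right _ _ (Ideal.subset_span rfl)
    have : f = (f - C (constantCoeff f)) + C (constantCoeff f) := by ring
    rw [this]
    exact Submodule.add_mem_sup h1 h2
  · rw [sup_le_iff]
    constructor
    · rw [Ideal.ofList, Ideal.span_le]
      intro f hf
      simp only [List.mem_map, Set.mem_ofPred_eq] at hf
      obtain ⟨i, _, rfl⟩ := hf
      rw [SetLike.mem_coe, hmem, constantCoeff_X]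
      exact zero_mem _
    · rw [Ideal.span_le]
      intro f hf
      rw [Set.mem_singleton_iff] at hf
      subst hf
      rw [SetLike.mem_coe, hmem, constantCoeff_C, hϖ]
      exact Ideal.subset_span rfl

end Fin

end MvPS

end Fermat.Agent.Helper9
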